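import Fermat.Agent.S55.H783.Shift

/-!
# S55 / T-layer (helper783): naturality of the connecting homomorphism under change of groups
-/

set_option autoImplicit false

open CategoryTheory CategoryTheory.Limits groupCohomology

namespace Fermat.Agent.S55.H783

universe u

variable {k : Type u} [CommRing k] {G₁ G₂ : Type u} [Group G₁] [Group G₂]

/-- The morphism of short complexes of cochain complexes induced by a group homomorphism
`f : G₁ →* G₂` and a morphism of short complexes `Res(f)(X₂) ⟶ X₁`. -/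
noncomputable def cochainsMapSC (f : G₁ →* G₂) {X₂ : ShortComplex (Rep k G₂)}
    {X₁ : ShortComplex (Rep k G₁)} (Φ : X₂.map (Rep.resFunctor f) ⟶ X₁) :
    X₂.map (cochainsFunctor k G₂) ⟶ X₁.map (cochainsFunctor k G₁) where
  τ₁ := cochainsMap f Φ.τ₁
  τ₂ := cochainsMap f Φ.τ₂
  τ₃ := cochainsMap f Φ.τ₃
  comm₁₂ := by
    have h := Φ.comm₁₂
    apply HomologicalComplex.hom_ext
    intro n
    apply ModuleCat.hom_ext
    apply LinearMap.ext
    intro x
    funext g
    exact congrArg (fun φ : (X₂.map (Rep.resFunctor f)).X₁ ⟶ X₁.X₂ => φ.hom (x (f ∘ g))) h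
  comm₂₃ := by
    have h := Φ.comm₂₃
    apply HomologicalComplex.hom_ext
    intro n
    apply ModuleCat.hom_ext
    apply LinearMap.ext
    intro x
    funext g
    exact congrArg (fun φ : (X₂.map (Rep.resFunctor f)).X₂ ⟶ X₁.X₃ => φ.hom (x (f ∘ g))) h

/-- **Naturality of `δ` under change of groups.** -/
theorem δ_naturality_map (f : G₁ →* G₂) {X₂ : ShortComplex (Rep k G₂)}
    {X₁ : ShortComplex (Rep k G₁)} (hX₂ : X₂.ShortExact) (hX₁ : X₁.ShortExact)
    (Φ : X₂.map (Rep.resFunctor f) ⟶ X₁) (i j : ℕ) (hij : i + 1 = j) :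
    δ hX₂ i j hij ≫ map f Φ.τ₁ j = map f Φ.τ₃ i ≫ δ hX₁ i j hij :=
  HomologicalComplex.HomologySequence.δ_naturality (cochainsMapSC f Φ)
    (map_cochainsFunctor_shortExact hX₂) (map_cochainsFunctor_shortExact hX₁) i j hij

end Fermat.Agent.S55.H783
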