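import Fermat.Agent.S55.H783.Natural

/-!
# S55 / T-layer (helper783): restriction to a subgroup of finite index

* `index_nsmul_eq_zero_H1` : `x ∈ H¹(G, A)`, `res_S x = 0` ⇒ `[G : S] • x = 0` (explicit transfer);
* `index_nsmul_eq_zero_H2`, `index_nsmul_eq_zero_H3` : the same in degrees 2, 3
  (dimension shifting).
-/

set_option autoImplicit false

open CategoryTheory CategoryTheory.Limits groupCohomology

namespace Fermat.Agent.S55.H783

universe u

variable {k G : Type u} [CommRing k] [Group G]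

/-- Restriction `Hⁿ(G, A) ⟶ Hⁿ(S, A)`. -/
noncomputable abbrev resMap (A : Rep k G) (S : Subgroup G) (n : ℕ) :
    groupCohomology A n ⟶ groupCohomology (Rep.res S.subtype A) n :=
  map S.subtype (𝟙 (Rep.res S.subtype A)) n

section H1

variable (A : Rep k G) (S : Subgroup G)

/-- A cocycle vanishing on `S` is constant on left cosets of `S`. -/
lemma cocycle_mul_of_vanish (c : G → A.V) (hc : c ∈ cocycles₁ A) (h0 : ∀ s ∈ S, c s = 0)
    (g : G) (s : G) (hs : s ∈ S) : c (g * s) = c g := by
  rw [(mem_cocycles₁_iff c).1 hc g s, h0 s hs, map_zero, zero_add]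

lemma cocycle_out_smul (c : G → A.V) (hc : c ∈ cocycles₁ A) (h0 : ∀ s ∈ S, c s = 0)
    (g : G) (q : G ⧸ S) : c ((g • q).out) = c (g * q.out) := by
  have h1 : ((g * q.out : G) : G ⧸ S) = g • q := by
    conv_rhs => rw [← QuotientGroup.out_eq' q]
    rfl
  have h2 : ((g • q).out)⁻¹ * (g * q.out) ∈ S := by
    rw [← QuotientGroup.eq, QuotientGroup.out_eq', h1]
  have h3 := cocycle_mul_of_vanish A S c hc h0 ((g • q).out) _ h2
  rw [← h3]
  congr 1
  group

theorem index_nsmul_mem_coboundaries₁ [S.FiniteIndex] (c : G → A.V) (hc : c ∈ cocycles₁ A)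
    (h0 : ∀ s ∈ S, c s = 0) : S.index • c ∈ coboundaries₁ A := by
  classical
  let _ : Fintype (G ⧸ S) := Subgroup.fintypeQuotientOfFiniteIndex
  set b : A.V := ∑ q : G ⧸ S, c q.out with hb
  refine ⟨-b, ?_⟩
  funext g
  rw [d₀₁_hom_apply]
  have h1 : A.ρ g b = ∑ q : G ⧸ S, (c ((g • q).out) - c g) := by
    rw [hb, map_sum]
    refine Finset.sum_congr rfl (fun q _ => ?_)
    rw [cocycle_out_smul A S c hc h0 g q, (mem_cocycles₁_iff c).1 hc g q.out]
    abel
  have h2 : ∑ q : G ⧸ S, c ((g • q).out) = b := by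
    rw [hb]
    exact Fintype.sum_equiv (MulAction.toPerm g) _ _ (fun q => rfl)
  rw [Finset.sum_sub_distrib, h2, Finset.sum_const, Finset.card_univ] at h1
  have h3 : Fintype.card (G ⧸ S) = S.index := by
    rw [Subgroup.index_eq_card, Nat.card_eq_fintype_card]
  rw [h3] at h1
  simp only [map_neg, Pi.smul_apply, h1]
  abel

/-- **Restriction–corestriction in degree 1**: if `res_S x = 0` then `[G : S] • x = 0`. -/
theorem index_nsmul_eq_zero_H1 [S.FiniteIndex] (x : H1 A) (hx : resMap A S 1 x = 0) :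
    S.index • x = 0 := by
  induction x using H1_induction_on with
  | h c =>
    rw [resMap, H1π_comp_map_apply, H1π_eq_zero_iff] at hx
    obtain ⟨a, ha⟩ := hx
    have ha' : ∀ s : S, A.ρ s a - a = c (s : G) := by
      intro s
      exact congrFun ha s
    -- the normalised cocycle
    have hc' : (c : G → A.V) - (d₀₁ A).hom a ∈ cocycles₁ A :=
      (cocycles₁ A).sub_mem c.2 (d₀₁_apply_mem_cocycles₁ a)
    have h0 : ∀ s ∈ S, ((c : G → A.V) - (d₀₁ A).hom a) s = 0 := by
      intro s hs
      have := ha' ⟨s, hs⟩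
      simp only [Pi.sub_apply, d₀₁_hom_apply]
      rw [← this]
      simp
    have h1 := index_nsmul_mem_coboundaries₁ A S _ hc' h0
    have h2 : S.index • (c : G → A.V) ∈ coboundaries₁ A := by
      have h3 : S.index • (c : G → A.V) =
          S.index • ((c : G → A.V) - (d₀₁ A).hom a) + S.index • (d₀₁ A).hom a := by
        rw [← smul_add, sub_add_cancel]
      rw [h3]
      exact (coboundaries₁ A).add_mem h1
        ((coboundaries₁ A).smul_of_tower_mem _ ⟨a, rfl⟩)
    rw [← map_nsmul, H1π_eq_zero_iff]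
    exact h2

end H1

/-! ### the shifting isomorphisms and restriction -/

section ShiftIso

variable (A : Rep k G) (S : Subgroup G)

/-- The dimension shifting sequence restricted to `S`. -/
noncomputable abbrev shiftSCRes : ShortComplex (Rep k S) :=
  (shiftSC A).map (Rep.resFunctor S.subtype)

lemma shiftSCRes_shortExact : (shiftSCRes A S).ShortExact :=
  (Rep.shortExact_res S.subtype).2 (shiftSC_shortExact A)

/-- The dimension shifting map `Hⁿ(G, A') ⟶ Hⁿ⁺¹(G, A)`. -/
noncomputable abbrev shiftδ (n : ℕ) :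
    groupCohomology (shiftRep A) n ⟶ groupCohomology A (n + 1) :=
  δ (shiftSC_shortExact A) n (n + 1) rfl

/-- The dimension shifting map `Hⁿ(S, A') ⟶ Hⁿ⁺¹(S, A)`. -/
noncomputable abbrev shiftδRes (n : ℕ) :
    groupCohomology (Rep.res S.subtype (shiftRep A)) n ⟶
      groupCohomology (Rep.res S.subtype A) (n + 1) :=
  δ (shiftSCRes_shortExact A S) n (n + 1) rfl

lemma isIso_shiftδ (n : ℕ) : IsIso (shiftδ A (n + 1)) :=
  isIso_δ_of_isZero (shiftSC_shortExact A) (n + 1) (isZero_funRep A.V n)
    (isZero_funRep A.V (n + 1))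

lemma isIso_shiftδRes (n : ℕ) : IsIso (shiftδRes A S (n + 1)) :=
  isIso_δ_of_isZero (shiftSCRes_shortExact A S) (n + 1) (isZero_res_funRep S A.V n)
    (isZero_res_funRep S A.V (n + 1))

lemma epi_shiftδ (n : ℕ) : Epi (shiftδ A n) :=
  epi_δ_of_isZero (shiftSC_shortExact A) n (isZero_funRep A.V n)

lemma epi_shiftδRes (n : ℕ) : Epi (shiftδRes A S n) :=
  epi_δ_of_isZero (shiftSCRes_shortExact A S) n (isZero_res_funRep S A.V n)

lemma shiftδ_surjective (n : ℕ) : Function.Surjective (shiftδ A n) :=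
  (ModuleCat.epi_iff_surjective _).1 (epi_shiftδ A n)

lemma shiftδRes_surjective (n : ℕ) : Function.Surjective (shiftδRes A S n) :=
  (ModuleCat.epi_iff_surjective _).1 (epi_shiftδRes A S n)

lemma shiftδ_injective (n : ℕ) : Function.Injective (shiftδ A (n + 1)) := by
  have := isIso_shiftδ A n
  exact (ModuleCat.mono_iff_injective _).1 inferInstance

lemma shiftδRes_injective (n : ℕ) : Function.Injective (shiftδRes A S (n + 1)) := by
  have := isIso_shiftδRes A S n
  exact (ModuleCat.mono_iff_injective _).1 inferInstance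

/-- Dimension shifting commutes with restriction. -/
lemma shiftδ_comp_resMap (n : ℕ) :
    shiftδ A n ≫ resMap A S (n + 1) = resMap (shiftRep A) S n ≫ shiftδRes A S n :=
  δ_naturality_map S.subtype (shiftSC_shortExact A) (shiftSCRes_shortExact A S)
    (𝟙 ((shiftSC A).map (Rep.resFunctor S.subtype))) n (n + 1) rfl

lemma shiftδ_resMap_apply (n : ℕ) (y : groupCohomology (shiftRep A) n) :
    resMap A S (n + 1) (shiftδ A n y) = shiftδRes A S n (resMap (shiftRep A) S n y) := by
  have h := shiftδ_comp_resMap A S n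
  exact congrArg (fun f => f.hom y) h

/-- vanishing transfers along the shift: `Hⁿ⁺²(S, A) = 0 ↔ Hⁿ⁺¹(S, A') = 0`. -/
lemma isZero_res_shift_iff (n : ℕ) :
    IsZero (groupCohomology (Rep.res S.subtype (shiftRep A)) (n + 1)) ↔
      IsZero (groupCohomology (Rep.res S.subtype A) (n + 2)) := by
  have := isIso_shiftδRes A S n
  exact (asIso (shiftδRes A S (n + 1))).isZero_iff

lemma isZero_shift_iff (n : ℕ) :
    IsZero (groupCohomology (shiftRep A) (n + 1)) ↔ IsZero (groupCohomology A (n + 2)) := by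
  have := isIso_shiftδ A n
  exact (asIso (shiftδ A (n + 1))).isZero_iff

end ShiftIso

/-- **Restriction–corestriction in all positive degrees**: if `res_S x = 0` then
`[G : S] • x = 0`. -/
theorem index_nsmul_eq_zero (n : ℕ) : ∀ (A : Rep k G) (S : Subgroup G) [S.FiniteIndex]
    (x : groupCohomology A (n + 1)), resMap A S (n + 1) x = 0 → S.index • x = 0 := by
  induction n with
  | zero =>
    intro A S _ x hx
    exact index_nsmul_eq_zero_H1 A S x hx
  | succ n ih =>
    intro A S _ x hx
    obtain ⟨y, rfl⟩ := shiftδ_surjective A (n + 1) x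
    rw [shiftδ_resMap_apply] at hx
    have h1 : resMap (shiftRep A) S (n + 1) y = 0 :=
      shiftδRes_injective A S n (by rw [hx, map_zero])
    have h2 := ih (shiftRep A) S y h1
    rw [← map_nsmul, h2, map_zero]

/-- `Hⁿ⁺¹(G, A)` is killed by the order of the finite group `G`. -/
theorem card_nsmul_eq_zero [Finite G] (A : Rep k G) (n : ℕ) (x : groupCohomology A (n + 1)) :
    Nat.card G • x = 0 := by
  have h1 : IsZero (groupCohomology (Rep.res (⊥ : Subgroup G).subtype A) (n + 1)) :=
    isZero_groupCohomology_succ_of_subsingleton _ n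
  have h1' := ModuleCat.subsingleton_of_isZero h1
  have h2 := index_nsmul_eq_zero n A (⊥ : Subgroup G) x (Subsingleton.elim _ _)
  rwa [Subgroup.index_bot] at h2

/-- **Sylow criterion**: a class in `Hⁿ⁺¹(G, A)` (`G` finite) whose restrictions to all Sylow
subgroups vanish is zero. -/
theorem eq_zero_of_forall_sylow [Finite G] (A : Rep k G) (n : ℕ)
    (x : groupCohomology A (n + 1))
    (h : ∀ (p : ℕ) [Fact p.Prime] (P : Sylow p G), resMap A (P : Subgroup G) (n + 1) x = 0) :
    x = 0 := by
  by_contra hx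
  have h1 : addOrderOf x ≠ 1 := by
    rwa [Ne, AddMonoid.addOrderOf_eq_one_iff]
  obtain ⟨p, hp, hpx⟩ := Nat.exists_prime_and_dvd h1
  have : Fact p.Prime := ⟨hp⟩
  obtain ⟨P⟩ : Nonempty (Sylow p G) := inferInstance
  have h2 := index_nsmul_eq_zero n A (P : Subgroup G) x (h p P)
  have h3 : addOrderOf x ∣ (P : Subgroup G).index := addOrderOf_dvd_of_nsmul_eq_zero h2
  exact P.not_dvd_index (hpx.trans h3)

end Fermat.Agent.S55.H783
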