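import Mathlib.RepresentationTheory.Homological.GroupCohomology.Shapiro
import Mathlib.RepresentationTheory.Homological.GroupCohomology.LongExactSequence
import Mathlib.RepresentationTheory.Homological.GroupCohomology.Functoriality
import Mathlib.RepresentationTheory.Homological.GroupCohomology.LowDegree
import Mathlib.RepresentationTheory.Homological.GroupCohomology.FiniteCyclic
import Mathlib.GroupTheory.Sylow

/-!
# S55 / T-layer (helper783): dimension shifting with the module of all functions `G → A`

* `funRep V`      : the representation of `G` on `G → V` by right translation;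
* `isZero_funRep` : `Hⁿ⁺¹(G, G → V) = 0` (Shapiro);
-/

set_option autoImplicit false

open CategoryTheory CategoryTheory.Limits groupCohomology

namespace Fermat.Agent.S55.H783

universe u

variable {k G : Type u} [CommRing k] [Group G]

/-- Right translation on functions `G → V`. -/
def funRho (k : Type u) (G : Type u) [CommRing k] [Group G] (V : Type u) [AddCommGroup V]
    [Module k V] : Representation k G (G → V) where
  toFun g := LinearMap.funLeft k V (fun x => x * g)
  map_one' := by
    ext f x
    simp [LinearMap.funLeft]
  map_mul' g h := by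
    ext f x
    simp [LinearMap.funLeft, mul_assoc]

@[simp]
lemma funRho_apply (V : Type u) [AddCommGroup V] [Module k V] (g : G) (f : G → V) (x : G) :
    funRho k G V g f x = f (x * g) := rfl

/-- The representation of `G` on `G → V` by right translation. -/
abbrev funRep (k : Type u) (G : Type u) [CommRing k] [Group G] (V : Type u) [AddCommGroup V]
    [Module k V] : Rep k G := Rep.of (funRho k G V)

/-- `G → V` is coinduced from the trivial subgroup. -/
noncomputable def funRepIsoCoind (V : Type u) [AddCommGroup V] [Module k V] :
    funRep k G V ≅ Rep.coind (⊥ : Subgroup G).subtype (Rep.trivial k (⊥ : Subgroup G) V) :=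
  Rep.mkIso
    { toLinearEquiv :=
        { toFun := fun f => ⟨f, fun g h => by
            have hg : (g : G) = 1 := Subgroup.mem_bot.mp g.2
            simp [hg]⟩
          invFun := fun f => f.1
          map_add' := fun _ _ => rfl
          map_smul' := fun _ _ => rfl
          left_inv := fun _ => rfl
          right_inv := fun _ => rfl }
      isIntertwining' := fun g => by
        ext f
        rfl }

theorem isZero_funRep (V : Type u) [AddCommGroup V] [Module k V] (n : ℕ) :
    IsZero (groupCohomology (funRep k G V) (n + 1)) := by
  have h1 : IsZero (groupCohomology (Rep.trivial k (⊥ : Subgroup G) V) (n + 1)) :=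
    isZero_groupCohomology_succ_of_subsingleton _ n
  have e1 := groupCohomology.coindIso (Rep.trivial k (⊥ : Subgroup G) V) (n + 1)
  have e2 : groupCohomology (funRep k G V) (n + 1) ≅
      groupCohomology (Rep.coind (⊥ : Subgroup G).subtype (Rep.trivial k (⊥ : Subgroup G) V))
        (n + 1) :=
    (groupCohomology.functor k G (n + 1)).mapIso (funRepIsoCoind V)
  exact (h1.of_iso e1).of_iso e2


/-! ### the dimension shifting sequence `0 → A → (G → A) → A' → 0` -/

section Shift

variable (A : Rep k G)

/-- The embedding `a ↦ (x ↦ ρ(x) a)` of `A` into `G → A`. -/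
def shiftIncl : A ⟶ funRep k G A.V :=
  Rep.ofHom (ρ := A.ρ) (σ := funRho k G A.V)
    ⟨{ toFun := fun a x => A.ρ x a
       map_add' := fun a b => by ext x; simp
       map_smul' := fun c a => by ext x; simp }, fun g => by
      ext a x
      simp⟩

@[simp]
lemma shiftIncl_apply (a : A.V) (x : G) : (shiftIncl A).hom a x = A.ρ x a := rfl

lemma shiftIncl_injective : Function.Injective (shiftIncl A).hom := by
  intro a b h
  have h1 : A.ρ 1 a = A.ρ 1 b := congrFun h 1
  simpa using h1

/-- The image of `A` in `G → A`. -/
def shiftRange : Submodule k (G → A.V) := LinearMap.range (shiftIncl A).hom.toLinearMap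

lemma mem_shiftRange (f : G → A.V) : f ∈ shiftRange A ↔ ∃ a : A.V, ∀ x, f x = A.ρ x a := by
  constructor
  · rintro ⟨a, rfl⟩
    exact ⟨a, fun x => rfl⟩
  · rintro ⟨a, ha⟩
    exact ⟨a, funext fun x => (ha x).symm⟩

lemma shiftRange_le_comap (g : G) :
    shiftRange A ≤ (shiftRange A).comap ((funRep k G A.V).ρ g) := by
  intro f hf
  rw [Submodule.mem_comap]
  obtain ⟨a, ha⟩ := (mem_shiftRange A f).1 hf
  refine (mem_shiftRange A _).2 ⟨A.ρ g a, fun x => ?_⟩
  change f (x * g) = _
  rw [ha, map_mul]
  rfl

/-- The shifted module `A' = (G → A) / A`. -/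
abbrev shiftRep : Rep k G :=
  Rep.quotient (funRep k G A.V) (shiftRange A) (shiftRange_le_comap A)

/-- The projection `(G → A) → A'`. -/
abbrev shiftProj : funRep k G A.V ⟶ shiftRep A :=
  Rep.mkQ (funRep k G A.V) (shiftRange A) (shiftRange_le_comap A)

lemma shiftProj_surjective : Function.Surjective (shiftProj A).hom :=
  Submodule.mkQ_surjective _

lemma shiftProj_eq_zero_iff (f : G → A.V) : (shiftProj A).hom f = 0 ↔ f ∈ shiftRange A :=
  Submodule.Quotient.mk_eq_zero _

lemma shiftIncl_comp_shiftProj : shiftIncl A ≫ shiftProj A = 0 := by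
  ext a
  exact (shiftProj_eq_zero_iff A _).2 ⟨a, rfl⟩

/-- The dimension shifting short complex. -/
def shiftSC : ShortComplex (Rep k G) :=
  ShortComplex.mk (shiftIncl A) (shiftProj A) (shiftIncl_comp_shiftProj A)

lemma shiftSC_shortExact : (shiftSC A).ShortExact where
  exact := by
    rw [← ShortComplex.exact_map_iff_of_faithful _ (forget₂ (Rep k G) (ModuleCat k)),
      ShortComplex.moduleCat_exact_iff_ker_sub_range]
    intro f hf
    exact (shiftProj_eq_zero_iff A f).1 hf
  mono_f := (Rep.mono_iff_injective _).2 (shiftIncl_injective A)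
  epi_g := (Rep.epi_iff_surjective _).2 (shiftProj_surjective A)

end Shift

/-! ### restriction to a subgroup -/

section Res

variable (S : Subgroup G) (V : Type u) [AddCommGroup V] [Module k V]

lemma out_inv_mul_mem (x : G) : ((x : G ⧸ S).out)⁻¹ * x ∈ S := by
  rw [← QuotientGroup.eq]
  exact QuotientGroup.out_eq' _

/-- `G → V ≃ S → (G ⧸ S → V)`, compatible with right translation by `S`. -/
noncomputable def resFunEquiv : (G → V) ≃ₗ[k] (S → (G ⧸ S → V)) where
  toFun f := fun s q => f (q.out * s)
  invFun F := fun x => F ⟨((x : G ⧸ S).out)⁻¹ * x, out_inv_mul_mem S x⟩ (x : G ⧸ S)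
  map_add' _ _ := rfl
  map_smul' _ _ := rfl
  left_inv f := by
    funext x
    simp
  right_inv F := by
    funext s q
    have h1 : ((q.out * (s : G) : G) : G ⧸ S) = q := by
      rw [QuotientGroup.mk_mul_of_mem _ s.2]
      exact QuotientGroup.out_eq' q
    simp only
    have h2 : (⟨(((q.out * (s : G) : G) : G ⧸ S).out)⁻¹ * (q.out * s),
        out_inv_mul_mem S (q.out * s)⟩ : S) = s := by
      apply Subtype.ext
      simp only
      rw [h1]
      group
    rw [h2, h1]

/-- The restriction of `G → V` to a subgroup `S` is again a module of all functions on `S`. -/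
noncomputable def resFunRepIso :
    Rep.res S.subtype (funRep k G V) ≅ funRep k S (G ⧸ S → V) :=
  Rep.mkIso (ρ := (funRho k G V).comp S.subtype) (σ := funRho k S (G ⧸ S → V))
    { toLinearEquiv := resFunEquiv S V
      isIntertwining' := fun s => by
        ext f t q
        simp [resFunEquiv, mul_assoc] }

theorem isZero_res_funRep (n : ℕ) :
    IsZero (groupCohomology (Rep.res S.subtype (funRep k G V)) (n + 1)) :=
  (isZero_funRep (k := k) (G := S) (G ⧸ S → V) n).of_iso
    ((groupCohomology.functor k S (n + 1)).mapIso (resFunRepIso S V))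

end Res

end Fermat.Agent.S55.H783
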