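import Fermat.Agent.S55.H783.Cyclic
import Mathlib.GroupTheory.IndexNormal
import Mathlib.GroupTheory.SpecificGroups.Cyclic.Basic

/-!
# S55 / T-layer (helper783): the criterion `Ĥ⁰ = H¹ = 0` on all subgroups ⇒ `H² = 0`
-/

set_option autoImplicit false

open CategoryTheory CategoryTheory.Limits groupCohomology

namespace Fermat.Agent.S55.H783

universe u

variable {k : Type u} [CommRing k]

/-- Every invariant is a norm (`Ĥ⁰ = 0`). -/
def NormCond {H : Type u} [Group H] (C : Rep k H) : Prop :=
  ∀ c : C.V, (∀ q, C.ρ q c = c) → ∃ b : C.V, c = ∑ᶠ q : H, C.ρ q b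

section Coset

variable {G : Type u} [Group G] (S : Subgroup G)

/-- `(G ⧸ S) × S ≃ G`, `(q, s) ↦ q.out * s`. -/
noncomputable def cosetProdEquiv : (G ⧸ S) × S ≃ G where
  toFun x := x.1.out * x.2
  invFun g := ((g : G ⧸ S), ⟨((g : G ⧸ S).out)⁻¹ * g, out_inv_mul_mem S g⟩)
  left_inv x := by
    obtain ⟨q, s⟩ := x
    have h1 : ((q.out * (s : G) : G) : G ⧸ S) = q := by
      rw [QuotientGroup.mk_mul_of_mem _ s.2]
      exact QuotientGroup.out_eq' q
    refine Prod.ext h1 (Subtype.ext ?_)
    simp only
    rw [h1]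
    group
  right_inv g := by
    simp

@[simp]
lemma cosetProdEquiv_apply (x : (G ⧸ S) × S) : cosetProdEquiv S x = x.1.out * x.2 := rfl

end Coset

section Quot

variable {G : Type u} [Group G] [Finite G] (B : Rep k G) (N : Subgroup G) [N.Normal]

omit [Finite G] in
lemma quotientToInvariants_ρ_val (g : G) (c : Representation.invariants (B.ρ.comp N.subtype)) :
    (show Representation.invariants (B.ρ.comp N.subtype) from
      (B.quotientToInvariants N).ρ (g : G ⧸ N) c).1 = B.ρ g c.1 := rfl

/-- The norm condition passes to the invariants of a normal subgroup. -/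
theorem NormCond.quotientToInvariants (h : NormCond B) :
    NormCond (B.quotientToInvariants N) := by
  classical
  intro c hc
  have hcG : ∀ g : G, B.ρ g (c : Representation.invariants (B.ρ.comp N.subtype)).1 =
      (c : Representation.invariants (B.ρ.comp N.subtype)).1 := by
    intro g
    rw [← quotientToInvariants_ρ_val, hc]
  obtain ⟨b₀, hb₀⟩ := h _ hcG
  let _ : Fintype G := Fintype.ofFinite G
  let _ : Fintype N := Fintype.ofFinite N
  let _ : Fintype (G ⧸ N) := Fintype.ofFinite _
  have hbN : (∑ n : N, B.ρ (n : G) b₀) ∈ Representation.invariants (B.ρ.comp N.subtype) := by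
    intro m
    change B.ρ (m : G) (∑ n : N, B.ρ (n : G) b₀) = _
    rw [map_sum]
    refine Fintype.sum_equiv (Equiv.mulLeft m) _ _ (fun n => ?_)
    simp [← Module.End.mul_apply, ← map_mul]
  refine ⟨⟨∑ n : N, B.ρ (n : G) b₀, hbN⟩, Subtype.ext ?_⟩
  rw [hb₀, finsum_eq_sum_of_fintype, finsum_eq_sum_of_fintype]
  have h1 : ∀ q : G ⧸ N, (show Representation.invariants (B.ρ.comp N.subtype) from
      (B.quotientToInvariants N).ρ q ⟨∑ n : N, B.ρ (n : G) b₀, hbN⟩).1 =
      ∑ n : N, B.ρ (q.out * (n : G)) b₀ := by
    intro q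
    conv_lhs => rw [← QuotientGroup.out_eq' q]
    rw [quotientToInvariants_ρ_val, map_sum]
    simp [map_mul]
  have h2 : ((∑ q : G ⧸ N, (B.quotientToInvariants N).ρ q
      ⟨∑ n : N, B.ρ (n : G) b₀, hbN⟩ : (B.quotientToInvariants N).V) :
      Representation.invariants (B.ρ.comp N.subtype)).1 =
      ∑ q : G ⧸ N, ∑ n : N, B.ρ (q.out * (n : G)) b₀ := by
    rw [← Finset.sum_congr rfl (fun q _ => h1 q)]
    exact map_sum (Submodule.subtype _) _ _
  rw [h2, ← Finset.sum_product']
  exact (Fintype.sum_equiv (cosetProdEquiv N) _ _ (fun x => rfl)).symm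

end Quot

/-- Hypotheses of the criterion: `H¹` vanishes and every invariant is a norm, on all subgroups
(formulated for all injective homomorphisms into `G`, which makes it stable under restriction). -/
structure CT2Hyp {G : Type u} [Group G] (B : Rep k G) : Prop where
  h1 : ∀ (H : Type u) [Group H] (φ : H →* G), Function.Injective φ →
    IsZero (H1 (Rep.res φ B))
  norm : ∀ (H : Type u) [Group H] (φ : H →* G), Function.Injective φ →
    NormCond (Rep.res φ B)

lemma CT2Hyp.res {G H : Type u} [Group G] [Group H] {B : Rep k G} (h : CT2Hyp B)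
    (φ : H →* G) (hφ : Function.Injective φ) : CT2Hyp (Rep.res φ B) where
  h1 K _ ψ hψ := h.h1 K (φ.comp ψ) (hφ.comp hψ)
  norm K _ ψ hψ := h.norm K (φ.comp ψ) (hφ.comp hψ)

/-- The criterion for `p`-groups. -/
theorem isZero_H2_of_pGroup (p : ℕ) [Fact p.Prime] (n : ℕ) :
    ∀ (P : Type u) [Group P] [Finite P], Nat.card P = p ^ n → ∀ (B : Rep k P), CT2Hyp B →
      IsZero (groupCohomology B 2) := by
  induction n with
  | zero =>
    intro P _ _ hcard B _
    have : Subsingleton P := (Nat.card_eq_one_iff_unique.1 (by simpa using hcard)).1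
    exact isZero_groupCohomology_succ_of_subsingleton B 1
  | succ n ih =>
    intro P _ _ hcard B hB
    have hp : p.Prime := Fact.out
    obtain ⟨N, hN⟩ := Sylow.exists_subgroup_card_pow_prime (G := P) p (n := n)
      (by rw [hcard]; exact pow_dvd_pow p (Nat.le_succ n))
    have hidx : N.index = p := by
      have h1 := N.card_mul_index
      rw [hN, hcard, pow_succ] at h1
      exact Nat.eq_of_mul_eq_mul_left (pow_pos hp.pos n) h1
    have hnorm : N.Normal := Subgroup.normal_of_index_eq_minFac_card (by
      rw [hidx, hcard, Nat.Prime.pow_minFac hp (Nat.succ_ne_zero n)])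
    refine isZero_H2_of_infRes B N (hB.h1 N N.subtype N.subtype_injective) ?_ ?_
    · exact ih N hN (Rep.res N.subtype B) (hB.res N.subtype N.subtype_injective)
    · have hcyc : IsCyclic (P ⧸ N) := isCyclic_of_prime_card (p := p) (by
        rw [← Subgroup.index_eq_card, hidx])
      exact isZero_H2_of_isCyclic _ (NormCond.quotientToInvariants B N
        (hB.norm P (MonoidHom.id P) Function.injective_id))

/-- **Criterion**: if `H¹` vanishes and every invariant is a norm on all subgroups of the finite
group `G`, then `H²(G, B) = 0`. -/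
theorem isZero_H2_of_CT2Hyp {G : Type u} [Group G] [Finite G] (B : Rep k G) (hB : CT2Hyp B) :
    IsZero (groupCohomology B 2) := by
  rw [ModuleCat.isZero_iff_subsingleton]
  have key : ∀ x : groupCohomology B 2, x = 0 := by
    intro x
    refine eq_zero_of_forall_sylow B 1 x (fun p _ P => ?_)
    obtain ⟨n, hn⟩ := IsPGroup.iff_card.1 P.isPGroup'
    have h1 := isZero_H2_of_pGroup p n (P : Subgroup G) hn (Rep.res (P : Subgroup G).subtype B)
      (hB.res _ (Subgroup.subtype_injective _))
    exact (ModuleCat.subsingleton_of_isZero h1).elim _ _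
  exact ⟨fun x y => by rw [key x, key y]⟩

end Fermat.Agent.S55.H783
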