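import Fermat.Agent.S55.H783.CT2

/-!
# S55 / T-layer (helper783): twin vanishing in positive degrees

If `H¹(S, A) = H²(S, A) = 0` for all subgroups `S` of the finite group `G`, then
`Hⁿ(S, A) = 0` for all `n ≥ 1` and all subgroups `S`.
-/

set_option autoImplicit false

open CategoryTheory CategoryTheory.Limits groupCohomology

namespace Fermat.Agent.S55.H783

universe u

variable {k : Type u} [CommRing k]

/-! ### transport along an injective homomorphism -/

section Transport

variable {G H : Type u} [Group G] [Group H]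

/-- `Hⁿ(H, A) ≅ Hⁿ(φ(H), A)` for an injective homomorphism `φ : H →* G`. -/
noncomputable def resRangeIso (A : Rep k G) (φ : H →* G) (hφ : Function.Injective φ) (n : ℕ) :
    groupCohomology (Rep.res φ A) n ≅ groupCohomology (Rep.res φ.range.subtype A) n :=
  mapIso (A := Rep.res φ.range.subtype A) (B := Rep.res φ A) (MonoidHom.ofInjective hφ)
    (LinearEquiv.refl k A.V) (fun g => by
      ext a
      rfl) n

lemma isZero_res_of_injective (A : Rep k G) (φ : H →* G) (hφ : Function.Injective φ) (n : ℕ)
    (h : IsZero (groupCohomology (Rep.res φ.range.subtype A) n)) :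
    IsZero (groupCohomology (Rep.res φ A) n) :=
  h.of_iso (resRangeIso A φ hφ n)

lemma NormCond.of_injective (B : Rep k G) (φ : H →* G) (hφ : Function.Injective φ)
    (h : NormCond (Rep.res φ.range.subtype B)) : NormCond (Rep.res φ B) := by
  intro c hc
  have hc' : ∀ s : φ.range, (Rep.res φ.range.subtype B).ρ s c = c := by
    rintro ⟨s, q, rfl⟩
    exact hc q
  obtain ⟨b, hb⟩ := h c hc'
  refine ⟨b, ?_⟩
  rw [hb]
  exact (finsum_comp_equiv (MonoidHom.ofInjective hφ).toEquiv
    (f := fun s : φ.range => B.ρ (s : G) b)).symm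

end Transport

/-! ### the norm condition for the shifted module -/

section Lift

variable {G : Type u} [Group G] (A : Rep k G) (S : Subgroup G)

/-- If `H¹(S, A) = 0`, every `S`-invariant of `A' = (G → A)/A` lifts to an `S`-invariant
function. -/
lemma exists_invariant_lift (h1 : IsZero (H1 (Rep.res S.subtype A))) (c : (shiftRep A).V)
    (hc : ∀ s : S, (shiftRep A).ρ (s : G) c = c) :
    ∃ f : G → A.V, (∀ (s : S) (x : G), f (x * s) = f x) ∧ (shiftProj A).hom f = c := by
  obtain ⟨f, hf⟩ := shiftProj_surjective A c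
  have hmem : ∀ n : S, (funRep k G A.V).ρ (n : G) f - f ∈ shiftRange A := by
    intro n
    rw [← shiftProj_eq_zero_iff, map_sub, shiftProj_comm, hf, sub_eq_zero]
    exact hc n
  choose c' hc' using hmem
  have hc'' : ∀ n : S, (shiftIncl A).hom (c' n) = (funRep k G A.V).ρ (n : G) f - f := hc'
  have hcoc : c' ∈ cocycles₁ (Rep.res S.subtype A) := by
    rw [mem_cocycles₁_iff]
    intro n m
    apply shiftIncl_injective A
    change (shiftIncl A).hom (c' (n * m)) = (shiftIncl A).hom (A.ρ n (c' m) + c' n)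
    rw [map_add, shiftIncl_comm, hc'', hc'', hc'']
    simp only [Subgroup.coe_mul, map_mul, Module.End.mul_apply, map_sub]
    abel
  have hcob : c' ∈ coboundaries₁ (Rep.res S.subtype A) := by
    have h2 : H1π (Rep.res S.subtype A) ⟨c', hcoc⟩ = 0 :=
      (ModuleCat.subsingleton_of_isZero h1).elim _ _
    exact (H1π_eq_zero_iff _).1 h2
  obtain ⟨a, ha⟩ := hcob
  have ha' : ∀ n : S, A.ρ n a - a = c' n := fun n => congrFun ha n
  have hinv : ∀ n : S, (funRep k G A.V).ρ (n : G) (f - (shiftIncl A).hom a) =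
      f - (shiftIncl A).hom a := by
    intro n
    rw [map_sub, ← shiftIncl_comm]
    have h3 := hc'' n
    rw [← ha' n, map_sub] at h3
    rw [sub_eq_sub_iff_sub_eq_sub, ← h3]
  refine ⟨f - (shiftIncl A).hom a, fun s x => congrFun (hinv s) x, ?_⟩
  have h4 : (shiftProj A).hom ((shiftIncl A).hom a) = 0 :=
    (shiftProj_eq_zero_iff A _).2 ⟨a, rfl⟩
  rw [map_sub, hf, h4, sub_zero]

/-- An `S`-invariant function on `G` is an `S`-norm. -/
lemma exists_norm_eq [Finite S] (V : Type u) [AddCommGroup V] [Module k V] (f : G → V)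
    (hf : ∀ (s : S) (x : G), f (x * s) = f x) :
    ∃ f₀ : G → V, f = ∑ᶠ s : S, (funRep k G V).ρ (s : G) f₀ := by
  classical
  let _ : Fintype S := Fintype.ofFinite S
  refine ⟨fun x => if x = (x : G ⧸ S).out then f x else 0, ?_⟩
  rw [finsum_eq_sum_of_fintype]
  funext x
  rw [Finset.sum_apply]
  have hmem : x⁻¹ * (x : G ⧸ S).out ∈ S := by
    rw [← QuotientGroup.eq]
    exact (QuotientGroup.out_eq' _).symm
  have h1 : ∀ s : S, (funRep k G V).ρ (s : G)
      (fun x => if x = (x : G ⧸ S).out then f x else 0) x =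
      if s = ⟨x⁻¹ * (x : G ⧸ S).out, hmem⟩ then f x else 0 := by
    intro s
    change (if x * (s : G) = ((x * (s : G) : G) : G ⧸ S).out then f (x * s) else 0) = _
    have h2 : ((x * (s : G) : G) : G ⧸ S) = (x : G ⧸ S) := QuotientGroup.mk_mul_of_mem _ s.2
    rw [h2, hf]
    have h3 : x * (s : G) = (x : G ⧸ S).out ↔ s = ⟨x⁻¹ * (x : G ⧸ S).out, hmem⟩ := by
      rw [Subtype.ext_iff]
      change x * (s : G) = (x : G ⧸ S).out ↔ (s : G) = x⁻¹ * (x : G ⧸ S).out
      constructor
      · intro h
        rw [← h, inv_mul_cancel_left]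
      · intro h
        rw [h, mul_inv_cancel_left]
    simp only [h3]
  rw [Finset.sum_congr rfl (fun s _ => h1 s)]
  simp

/-- If `H¹(S, A) = 0` then every `S`-invariant of the shifted module is an `S`-norm. -/
theorem normCond_res_shiftRep [Finite S] (h1 : IsZero (H1 (Rep.res S.subtype A))) :
    NormCond (Rep.res S.subtype (shiftRep A)) := by
  classical
  intro c hc
  obtain ⟨f, hf, rfl⟩ := exists_invariant_lift A S h1 c hc
  obtain ⟨f₀, hf₀⟩ := exists_norm_eq (k := k) S A.V f hf
  refine ⟨(shiftProj A).hom f₀, ?_⟩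
  let _ : Fintype S := Fintype.ofFinite S
  rw [finsum_eq_sum_of_fintype] at hf₀ ⊢
  rw [hf₀, map_sum]
  exact Finset.sum_congr rfl (fun s _ => shiftProj_comm A (s : G) f₀)

end Lift

/-! ### twin vanishing -/

/-- The twin vanishing hypothesis (formulated for all injective homomorphisms into `G`, which
makes it stable under restriction). -/
structure TwinHyp {G : Type u} [Group G] (A : Rep k G) : Prop where
  h1 : ∀ (H : Type u) [Group H] (φ : H →* G), Function.Injective φ →
    IsZero (groupCohomology (Rep.res φ A) 1)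
  h2 : ∀ (H : Type u) [Group H] (φ : H →* G), Function.Injective φ →
    IsZero (groupCohomology (Rep.res φ A) 2)

section Twin

variable {G : Type u} [Group G]

lemma TwinHyp.of_subgroup (A : Rep k G)
    (h1 : ∀ S : Subgroup G, IsZero (groupCohomology (Rep.res S.subtype A) 1))
    (h2 : ∀ S : Subgroup G, IsZero (groupCohomology (Rep.res S.subtype A) 2)) : TwinHyp A where
  h1 _ _ φ hφ := isZero_res_of_injective A φ hφ 1 (h1 φ.range)
  h2 _ _ φ hφ := isZero_res_of_injective A φ hφ 2 (h2 φ.range)

lemma TwinHyp.res {H : Type u} [Group H] {A : Rep k G} (h : TwinHyp A) (φ : H →* G)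
    (hφ : Function.Injective φ) : TwinHyp (Rep.res φ A) where
  h1 K _ ψ hψ := h.h1 K (φ.comp ψ) (hφ.comp hψ)
  h2 K _ ψ hψ := h.h2 K (φ.comp ψ) (hφ.comp hψ)

lemma TwinHyp.ct2Hyp_shiftRep [Finite G] {A : Rep k G} (h : TwinHyp A) :
    CT2Hyp (shiftRep A) where
  h1 H _ φ hφ := by
    refine isZero_res_of_injective (shiftRep A) φ hφ 1 ?_
    exact (isZero_res_shift_iff A φ.range 0).2 (h.h2 _ φ.range.subtype (Subgroup.subtype_injective _))
  norm H _ φ hφ := by
    refine NormCond.of_injective (shiftRep A) φ hφ ?_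
    exact normCond_res_shiftRep A φ.range (h.h1 _ φ.range.subtype (Subgroup.subtype_injective _))

/-- `H³(G, A) = 0` under the twin vanishing hypothesis. -/
theorem TwinHyp.isZero_H3 [Finite G] {A : Rep k G} (h : TwinHyp A) :
    IsZero (groupCohomology A 3) :=
  (isZero_shift_iff A 1).1 (isZero_H2_of_CT2Hyp (shiftRep A) h.ct2Hyp_shiftRep)

lemma TwinHyp.shiftRep [Finite G] {A : Rep k G} (h : TwinHyp A) : TwinHyp (shiftRep A) where
  h1 H _ φ hφ := h.ct2Hyp_shiftRep.h1 H φ hφ
  h2 H _ φ hφ := by
    refine isZero_res_of_injective (Fermat.Agent.S55.H783.shiftRep A) φ hφ 2 ?_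
    refine (isZero_res_shift_iff A φ.range 1).2 ?_
    have : Finite φ.range := inferInstance
    exact (h.res φ.range.subtype (Subgroup.subtype_injective _)).isZero_H3

/-- **Twin vanishing, positive degrees**: `Hⁿ⁺¹(G, A) = 0` for all `n`. -/
theorem TwinHyp.isZero_succ [Finite G] (n : ℕ) : ∀ {A : Rep k G}, TwinHyp A →
    IsZero (groupCohomology A (n + 1)) := by
  induction n with
  | zero =>
    intro A h
    exact h.h1 G (MonoidHom.id G) Function.injective_id
  | succ n ih =>
    intro A h
    exact (isZero_shift_iff A n).1 (ih h.shiftRep)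

/-- **Twin vanishing in positive degrees, subgroup form.** -/
theorem isZero_res_succ_of_twin [Finite G] (A : Rep k G)
    (h1 : ∀ S : Subgroup G, IsZero (groupCohomology (Rep.res S.subtype A) 1))
    (h2 : ∀ S : Subgroup G, IsZero (groupCohomology (Rep.res S.subtype A) 2))
    (S : Subgroup G) (n : ℕ) : IsZero (groupCohomology (Rep.res S.subtype A) (n + 1)) :=
  ((TwinHyp.of_subgroup A h1 h2).res S.subtype (Subgroup.subtype_injective _)).isZero_succ n

end Twin

end Fermat.Agent.S55.H783
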