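import Fermat.Agent.S55.H783.ExtMod

/-!
# S55 / T-layer (helper783): `H³` of a class module vanishes

Let `G` be a finite group and `(C, γ)` a class module: for all subgroups `S`, `H¹(S, C) = 0`
and `H²(S, C)` is generated by `res γ`, of exact order `|S|`.  If moreover `H¹(S, k) = 0` for all
`S` (true for `k = ℤ`), then `H³(S, C) = 0` for all subgroups `S`.

Proof: dimension shifting `C ↦ C' = (G → C)/C` turns `γ` into a class `[v] ∈ H¹(G, C')`; the
extension module `E_v` (`0 → C' → E_v → k → 0`) satisfies `H¹(S, E_v) = 0` and `Ĥ⁰(S, E_v) = 0`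
for all `S`, hence `H²(S, E_v) = 0`; and `H²(S, C') ↪ H²(S, E_v)`.
-/

set_option autoImplicit false

open CategoryTheory CategoryTheory.Limits groupCohomology

namespace Fermat.Agent.S55.H783

universe u

variable {k G : Type u} [CommRing k] [Group G]

/-- `H¹(G, ℤ) = 0` for a finite group `G` (more generally for any torsion-free coefficient ring
`k`, as an abelian group). -/
theorem isZero_H1_trivial_of_torsionFree [Finite G] [IsAddTorsionFree k] :
    IsZero (groupCohomology (Rep.trivial k G k) 1) := by
  refine IsZero.of_iso ?_ (H1IsoOfIsTrivial (Rep.trivial k G k))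
  rw [ModuleCat.isZero_iff_subsingleton]
  have key : ∀ f : Additive G →+ k, f = 0 := by
    intro f
    refine AddMonoidHom.ext fun x => ?_
    have h1 : Nat.card G • f x = 0 := by
      rw [← map_nsmul]
      have h2 : Nat.card G • x = 0 := by
        have h3 : (Additive.toMul x) ^ Nat.card G = 1 := pow_card_eq_one'
        exact congrArg Additive.ofMul h3
      rw [h2, map_zero]
    exact (nsmul_eq_zero_iff_right (Nat.card_pos (α := G)).ne').1 h1
  exact ⟨fun f g => by rw [key f, key g]⟩

/-- **`H³` of a class module vanishes** (generic coefficient ring). -/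
theorem isZero_H3_of_classModule [Finite G] (C : Rep k G) (γ : groupCohomology C 2)
    (hk : ∀ S : Subgroup G, IsZero (groupCohomology (Rep.trivial k S k) 1))
    (h1 : ∀ S : Subgroup G, IsZero (groupCohomology (Rep.res S.subtype C) 1))
    (hgen : ∀ (S : Subgroup G) (x : groupCohomology (Rep.res S.subtype C) 2),
      ∃ c : k, x = c • (resMap C S 2).hom γ)
    (hord : ∀ (S : Subgroup G) (c : k), c • (resMap C S 2).hom γ = 0 →
      ∃ d : k, c = (Nat.card S : k) * d)
    (S : Subgroup G) : IsZero (groupCohomology (Rep.res S.subtype C) 3) := by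
  obtain ⟨γ', rfl⟩ := shiftδ_surjective C 1 γ
  induction γ' using H1_induction_on with
  | h v =>
    -- restriction of `γ` in terms of `v`
    have hres : ∀ T : Subgroup G, (resMap C T 2).hom ((shiftδ C 1).hom (H1π (shiftRep C) v)) =
        (shiftδRes C T 1).hom (H1π (Rep.res T.subtype (shiftRep C)) (resCoc (shiftRep C) v T)) := by
      intro T
      have h := shiftδ_resMap_apply C T 1 (H1π (shiftRep C) v)
      rw [← resMap_H1π]
      exact h
    refine (isZero_res_shift_iff C S 1).1 ?_
    refine isZero_H2_of_extension (shiftRep C) v (fun T => hk T)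
      (fun T => normCond_res_shiftRep C T (h1 T)) ?_ ?_ S
    · intro T x
      obtain ⟨c, hc⟩ := hgen T ((shiftδRes C T 1).hom x)
      refine ⟨c, shiftδRes_injective C T 0 ?_⟩
      rw [map_smul]
      rw [hres T] at hc
      exact hc
    · intro T c hc
      refine hord T c ?_
      rw [hres T, ← map_smul]
      have : (shiftδRes C T 1).hom
          (c • H1π (Rep.res T.subtype (shiftRep C)) (resCoc (shiftRep C) v T)) =
          (shiftδRes C T 1).hom 0 := congrArg _ hc
      rw [this, map_zero]

end Fermat.Agent.S55.H783
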