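import Fermat.Agent.S55.H783.InfRes

/-!
# S55 / T-layer (helper783): `H²` of a finite cyclic group

If every invariant of `C` is a norm, then `H²(Q, C) = 0` for a finite cyclic group `Q`.
-/

set_option autoImplicit false

open CategoryTheory CategoryTheory.Limits groupCohomology

namespace Fermat.Agent.S55.H783

universe u

variable {k : Type u} [CommRing k]

theorem isZero_H2_of_isCyclic {Q : Type u} [Group Q] [Finite Q] [IsCyclic Q] (C : Rep k Q)
    (h : ∀ c : C.V, (∀ q, C.ρ q c = c) → ∃ b : C.V, c = ∑ᶠ q : Q, C.ρ q b) :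
    IsZero (groupCohomology C 2) := by
  classical
  let _ : CommGroup Q := IsCyclic.commGroup
  let _ : Fintype Q := Fintype.ofFinite Q
  obtain ⟨g, hg⟩ := IsCyclic.exists_generator (α := Q)
  have e := Rep.FiniteCyclicGroup.groupCohomologyIsoEven C g hg 2 (by decide)
  refine IsZero.of_iso ?_ e
  rw [← ShortComplex.exact_iff_isZero_homology, ShortComplex.moduleCat_exact_iff_ker_sub_range]
  intro c hc
  have hc1 : C.ρ g c = c := by
    have h1 : C.ρ g c - c = 0 := hc
    exact sub_eq_zero.1 h1
  have hc2 : ∀ q, C.ρ q c = c := by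
    have := (Representation.mem_invariants_iff_of_forall_mem_zpowers C.ρ g hg c).2 hc1
    exact this
  obtain ⟨b, hb⟩ := h c hc2
  refine ⟨b, ?_⟩
  rw [hb, finsum_eq_sum_of_fintype]
  change C.ρ.norm b = _
  simp [Representation.norm]

end Fermat.Agent.S55.H783
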