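import Fermat.Agent.S55.H783.CT3

/-!
# S55 / T-layer (helper783): the extension module of a 1-cocycle

For a 1-cocycle `v : G → B` the module `B × k` with the twisted action
`g (b, n) = (g b + n v(g), n)` is an extension `0 → B → E_v → k → 0` whose connecting map
sends `n ∈ k = H⁰(G, k)` to `n • [v]`.
-/

set_option autoImplicit false

open CategoryTheory CategoryTheory.Limits groupCohomology

namespace Fermat.Agent.S55.H783

universe u

variable {k G : Type u} [CommRing k] [Group G]

section Ext

variable (B : Rep k G) (v : cocycles₁ B)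

/-- The twisted action on `B × k`. -/
def extRho : Representation k G (B.V × k) where
  toFun g :=
    { toFun := fun x => (B.ρ g x.1 + x.2 • (v : G → B.V) g, x.2)
      map_add' := fun x y => by
        refine Prod.ext ?_ rfl
        simp only [Prod.fst_add, Prod.snd_add, map_add, add_smul]
        abel
      map_smul' := fun c x => by
        refine Prod.ext ?_ rfl
        simp only [Prod.smul_fst, Prod.smul_snd, map_smul, smul_eq_mul, mul_smul,
          RingHom.id_apply, smul_add] }
  map_one' := by
    refine LinearMap.ext fun x => Prod.ext ?_ rfl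
    simp
  map_mul' g h := by
    refine LinearMap.ext fun x => Prod.ext ?_ rfl
    have h1 := (mem_cocycles₁_iff (v : G → B.V)).1 v.2 g h
    simp only [LinearMap.coe_mk, AddHom.coe_mk, Module.End.mul_apply, map_mul, map_add, map_smul]
    rw [h1, smul_add]
    abel

@[simp]
lemma extRho_apply (g : G) (x : B.V × k) :
    extRho B v g x = (B.ρ g x.1 + x.2 • (v : G → B.V) g, x.2) := rfl

/-- The extension module `E_v`. -/
abbrev extRep : Rep k G := Rep.of (extRho B v)

/-- The inclusion `B → E_v`. -/
def extIncl : B ⟶ extRep B v :=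
  Rep.ofHom (ρ := B.ρ) (σ := extRho B v)
    ⟨LinearMap.inl k B.V k, fun g => by
      ext b
      · simp
      · simp⟩

/-- The projection `E_v → k`. -/
def extProj : extRep B v ⟶ Rep.trivial k G k :=
  Rep.ofHom (ρ := extRho B v) (σ := Representation.trivial k G k)
    ⟨LinearMap.snd k B.V k, fun g => by
      ext x
      · simp
      · simp⟩

@[simp]
lemma extIncl_apply (b : B.V) : (extIncl B v).hom b = (b, 0) := rfl

@[simp]
lemma extProj_apply (x : B.V × k) : (extProj B v).hom x = x.2 := rfl

lemma extIncl_comp_extProj : extIncl B v ≫ extProj B v = 0 := by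
  ext b
  rfl

/-- The extension `0 → B → E_v → k → 0`. -/
def extSC : ShortComplex (Rep k G) :=
  ShortComplex.mk (extIncl B v) (extProj B v) (extIncl_comp_extProj B v)

lemma extSC_shortExact : (extSC B v).ShortExact where
  exact := by
    rw [← ShortComplex.exact_map_iff_of_faithful _ (forget₂ (Rep k G) (ModuleCat k)),
      ShortComplex.moduleCat_exact_iff_ker_sub_range]
    intro x hx
    have hx2 : (x : B.V × k).2 = 0 := hx
    exact ⟨(x : B.V × k).1, Prod.ext rfl hx2.symm⟩
  mono_f := (Rep.mono_iff_injective _).2 (fun a b h => congrArg Prod.fst h)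
  epi_g := (Rep.epi_iff_surjective _).2 (fun n => ⟨((0 : B.V), n), rfl⟩)

end Ext

/-! ### cohomology of the extension module on a subgroup -/

section Coh

variable (B : Rep k G) (v : cocycles₁ B) (S : Subgroup G)

/-- The restriction of a 1-cocycle to a subgroup. -/
def resCoc : cocycles₁ (Rep.res S.subtype B) :=
  ⟨fun s => (v : G → B.V) (s : G), by
    rw [mem_cocycles₁_iff]
    intro s t
    exact (mem_cocycles₁_iff (v : G → B.V)).1 v.2 s t⟩

@[simp]
lemma resCoc_apply (s : S) : resCoc B v S s = (v : G → B.V) (s : G) := rfl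

lemma resMap_H1π : (resMap B S 1).hom (H1π B v) = H1π (Rep.res S.subtype B) (resCoc B v S) := by
  have h := H1π_comp_map_apply S.subtype (𝟙 (Rep.res S.subtype B)) v
  refine h.trans ?_
  congr 1

/-- The extension sequence restricted to `S`. -/
noncomputable abbrev extSCRes : ShortComplex (Rep k S) :=
  (extSC B v).map (Rep.resFunctor S.subtype)

lemma extSCRes_shortExact : (extSCRes B v S).ShortExact :=
  (Rep.shortExact_res S.subtype).2 (extSC_shortExact B v)

lemma mem_invariants_trivial (n : k) :
    n ∈ (Rep.res S.subtype (Rep.trivial k G k)).ρ.invariants := fun _ => rfl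

/-- The connecting map of the extension sends `n` to `n • [v]`. -/
lemma extδ_apply (n : k) :
    δ (extSCRes_shortExact B v S) 0 1 rfl
      ((H0Iso (Rep.res S.subtype (Rep.trivial k G k))).inv ⟨n, mem_invariants_trivial S n⟩) =
      n • H1π (Rep.res S.subtype B) (resCoc B v S) := by
  have hx : (extSCRes B v S).f.hom ∘ (fun s : S => n • (v : G → B.V) (s : G)) =
      d₀₁ (extSCRes B v S).X₂ ((0 : B.V), n) := by
    funext s
    refine Prod.ext ?_ ?_
    · change n • (v : G → B.V) (s : G) = (B.ρ (s : G) 0 + n • (v : G → B.V) (s : G)) - 0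
      simp
    · change (0 : k) = n - n
      simp
  have h := δ₀_apply (extSCRes_shortExact B v S) ⟨n, mem_invariants_trivial S n⟩
    ((0 : B.V), n) rfl (fun s : S => n • (v : G → B.V) (s : G)) hx
  refine h.trans ?_
  rw [← map_smul]
  congr 1

/-- If `H¹(S, k) = 0` and `H¹(S, B)` is generated by `res [v]`, then `H¹(S, E_v) = 0`. -/
theorem isZero_H1_extRep
    (hk : IsZero (groupCohomology (Rep.res S.subtype (Rep.trivial k G k)) 1))
    (hgen : ∀ x : groupCohomology (Rep.res S.subtype B) 1,
      ∃ c : k, x = c • H1π (Rep.res S.subtype B) (resCoc B v S)) :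
    IsZero (groupCohomology (Rep.res S.subtype (extRep B v)) 1) := by
  rw [ModuleCat.isZero_iff_subsingleton]
  have key : ∀ y : groupCohomology (Rep.res S.subtype (extRep B v)) 1, y = 0 := by
    intro y
    have hX := extSCRes_shortExact B v S
    obtain ⟨x, hx⟩ := (ShortComplex.moduleCat_exact_iff _).1 (mapShortComplex₂_exact hX 1) y
      ((ModuleCat.subsingleton_of_isZero hk).elim _ _)
    obtain ⟨c, hc⟩ := hgen x
    rw [← extδ_apply] at hc
    have hzero := (mapShortComplex₁ hX (i := 0) (j := 1) rfl).zero
    have h2 := congrArg (fun f => f.hom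
      ((H0Iso (Rep.res S.subtype (Rep.trivial k G k))).inv ⟨c, mem_invariants_trivial S c⟩)) hzero
    rw [← hx, hc]
    exact h2
  exact ⟨fun x y => by rw [key x, key y]⟩

/-- If `H¹(S, k) = 0` then `H²(S, B) → H²(S, E_v)` is injective. -/
theorem isZero_H2_of_extRep
    (hk : IsZero (groupCohomology (Rep.res S.subtype (Rep.trivial k G k)) 1))
    (h : IsZero (groupCohomology (Rep.res S.subtype (extRep B v)) 2)) :
    IsZero (groupCohomology (Rep.res S.subtype B) 2) := by
  rw [ModuleCat.isZero_iff_subsingleton]
  have key : ∀ x : groupCohomology (Rep.res S.subtype B) 2, x = 0 := by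
    intro x
    have hX := extSCRes_shortExact B v S
    obtain ⟨z, hz⟩ := (ShortComplex.moduleCat_exact_iff _).1
      (mapShortComplex₁_exact hX (i := 1) (j := 2) rfl) x
      ((ModuleCat.subsingleton_of_isZero h).elim _ _)
    rw [← hz, (ModuleCat.subsingleton_of_isZero hk).elim z 0]
    exact map_zero _
  exact ⟨fun x y => by rw [key x, key y]⟩

/-- The norm condition for the extension module: if every invariant of `B` is an `S`-norm and
`res [v]` has exact order `|S|`, then every invariant of `E_v` is an `S`-norm. -/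
theorem normCond_res_extRep [Finite S] (hB : NormCond (Rep.res S.subtype B))
    (hord : ∀ c : k, c • H1π (Rep.res S.subtype B) (resCoc B v S) = 0 →
      ∃ d : k, c = (Nat.card S : k) * d) :
    NormCond (Rep.res S.subtype (extRep B v)) := by
  classical
  let _ : Fintype S := Fintype.ofFinite S
  rintro ⟨c, n⟩ hy
  have h1 : ∀ s : S, B.ρ (s : G) c + n • (v : G → B.V) (s : G) = c := fun s =>
    congrArg Prod.fst (hy s)
  -- `n • res [v] = 0`
  have h2 : n • H1π (Rep.res S.subtype B) (resCoc B v S) = 0 := by
    rw [← map_smul, H1π_eq_zero_iff]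
    refine ⟨-c, ?_⟩
    funext s
    have := h1 s
    change (Rep.res S.subtype B).ρ s (-c) - (-c) = n • (v : G → B.V) (s : G)
    change B.ρ (s : G) (-c) - (-c) = n • (v : G → B.V) (s : G)
    rw [map_neg, neg_sub_neg, sub_eq_iff_eq_add, add_comm]
    exact this.symm
  obtain ⟨d, hd⟩ := hord n h2
  set w : B.V := ∑ s : S, (v : G → B.V) (s : G) with hw
  -- `c - d • w` is invariant
  have h3 : ∀ t : S, (Rep.res S.subtype B).ρ t (c - d • w) = c - d • w := by
    intro t
    change B.ρ (t : G) (c - d • w) = c - d • w
    have h4 : B.ρ (t : G) w = w - (Nat.card S : k) • (v : G → B.V) (t : G) := by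
      rw [hw, map_sum]
      have h5 : ∀ s : S, B.ρ (t : G) ((v : G → B.V) (s : G)) =
          (v : G → B.V) ((t * s : S) : G) - (v : G → B.V) (t : G) := by
        intro s
        rw [Subgroup.coe_mul, (mem_cocycles₁_iff (v : G → B.V)).1 v.2 (t : G) (s : G)]
        abel
      rw [Finset.sum_congr rfl (fun s _ => h5 s), Finset.sum_sub_distrib, Finset.sum_const,
        Finset.card_univ, Nat.card_eq_fintype_card, Nat.cast_smul_eq_nsmul]
      congr 1
      exact Fintype.sum_equiv (Equiv.mulLeft t) _ _ (fun s => rfl)
    rw [map_sub, map_smul, h4, smul_sub, smul_smul, mul_comm d, ← hd]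
    have := h1 t
    rw [← sub_eq_zero] at this ⊢
    rw [← this]
    abel
  obtain ⟨b₀, hb₀⟩ := hB (c - d • w) h3
  rw [finsum_eq_sum_of_fintype] at hb₀
  refine ⟨(b₀, d), ?_⟩
  rw [finsum_eq_sum_of_fintype]
  refine Prod.ext ?_ ?_
  · rw [Prod.fst_sum]
    change c = ∑ s : S, (B.ρ (s : G) b₀ + d • (v : G → B.V) (s : G))
    rw [Finset.sum_add_distrib, ← Finset.smul_sum, ← hw]
    have : ∑ s : S, B.ρ (s : G) b₀ = c - d • w := hb₀.symm
    rw [this]
    abel
  · rw [Prod.snd_sum]
    change n = ∑ _s : S, d
    rw [Finset.sum_const, Finset.card_univ, hd, Nat.card_eq_fintype_card, nsmul_eq_mul]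

end Coh

/-! ### the vanishing theorem -/

section Main

variable [Finite G] (B : Rep k G) (v : cocycles₁ B)

/-- Let `v` be a 1-cocycle with values in `B` such that for all subgroups `S`: `H¹(S, k) = 0`,
every `S`-invariant of `B` is a norm, and `H¹(S, B)` is generated by `res [v]`, of exact order
`|S|`.  Then `H²(S, B) = 0` for all subgroups `S`. -/
theorem isZero_H2_of_extension
    (hk : ∀ S : Subgroup G,
      IsZero (groupCohomology (Rep.res S.subtype (Rep.trivial k G k)) 1))
    (hnorm : ∀ S : Subgroup G, NormCond (Rep.res S.subtype B))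
    (hgen : ∀ (S : Subgroup G) (x : groupCohomology (Rep.res S.subtype B) 1),
      ∃ c : k, x = c • H1π (Rep.res S.subtype B) (resCoc B v S))
    (hord : ∀ (S : Subgroup G) (c : k), c • H1π (Rep.res S.subtype B) (resCoc B v S) = 0 →
      ∃ d : k, c = (Nat.card S : k) * d)
    (S : Subgroup G) : IsZero (groupCohomology (Rep.res S.subtype B) 2) := by
  have hE : CT2Hyp (extRep B v) :=
    { h1 := fun H _ φ hφ => isZero_res_of_injective (extRep B v) φ hφ 1
        (isZero_H1_extRep B v φ.range (hk _) (hgen _))
      norm := fun H _ φ hφ => NormCond.of_injective (extRep B v) φ hφ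
        (normCond_res_extRep B v φ.range (hnorm _) (hord _)) }
  exact isZero_H2_of_extRep B v S (hk S)
    (isZero_H2_of_CT2Hyp _ (hE.res S.subtype (Subgroup.subtype_injective _)))

end Main

end Fermat.Agent.S55.H783
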