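import Fermat.Agent.S55.H783.ResCor

/-!
# S55 / T-layer (helper783): inflation–restriction in degree 2

For `N ⊴ G` and `B : Rep k G` with `H¹(N, B) = 0`: if `x ∈ H²(G, B)` restricts to `0` on `N`,
then `x` is inflated from `H²(G ⧸ N, B^N)`.
-/

set_option autoImplicit false

open CategoryTheory CategoryTheory.Limits groupCohomology

namespace Fermat.Agent.S55.H783

universe u

variable {k G : Type u} [CommRing k] [Group G]

section Inv

variable (B : Rep k G) (N : Subgroup G) [N.Normal]

/-- Inflation `Hⁿ(G ⧸ N, A^N) ⟶ Hⁿ(G, A)`. -/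
noncomputable abbrev infMap (A : Rep k G) (n : ℕ) :
    groupCohomology (A.quotientToInvariants N) n ⟶ groupCohomology A n :=
  map (QuotientGroup.mk' N) (Rep.ofHom (A.ρ.quotientToInvariants_lift N)) n

lemma quotientToInvariantsFunctor_map_val {X Y : Rep k G} (f : X ⟶ Y)
    (x : Representation.invariants (X.ρ.comp N.subtype)) :
    (show Representation.invariants (Y.ρ.comp N.subtype) from
      ((Rep.quotientToInvariantsFunctor k N).map f).hom x).1 = f.hom x.1 := rfl

/-- The sequence of `N`-invariants of the dimension shifting sequence. -/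
noncomputable def invSC : ShortComplex (Rep k (G ⧸ N)) :=
  ShortComplex.mk ((Rep.quotientToInvariantsFunctor k N).map (shiftIncl B))
    ((Rep.quotientToInvariantsFunctor k N).map (shiftProj B)) (by
      rw [← Functor.map_comp, shiftIncl_comp_shiftProj]
      ext x
      rfl)

lemma invSC_f_val (x : Representation.invariants (B.ρ.comp N.subtype)) :
    (show Representation.invariants ((funRep k G B.V).ρ.comp N.subtype) from
      (invSC B N).f.hom x).1 = (shiftIncl B).hom x.1 := rfl

lemma invSC_g_val (x : Representation.invariants ((funRep k G B.V).ρ.comp N.subtype)) :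
    (show Representation.invariants ((shiftRep B).ρ.comp N.subtype) from
      (invSC B N).g.hom x).1 = (shiftProj B).hom x.1 := rfl

lemma shiftIncl_comm (g : G) (a : B.V) :
    (shiftIncl B).hom (B.ρ g a) = (funRep k G B.V).ρ g ((shiftIncl B).hom a) :=
  Rep.hom_comm_apply (shiftIncl B) g a

lemma shiftProj_comm (g : G) (f : G → B.V) :
    (shiftProj B).hom ((funRep k G B.V).ρ g f) = (shiftRep B).ρ g ((shiftProj B).hom f) :=
  Rep.hom_comm_apply (shiftProj B) g f

/-- If `H¹(N, B) = 0`, the sequence of `N`-invariants `0 → B^N → F^N → B'^N → 0` is exact. -/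
lemma invSC_shortExact (h1 : IsZero (H1 (Rep.res N.subtype B))) : (invSC B N).ShortExact where
  exact := by
    rw [← ShortComplex.exact_map_iff_of_faithful _ (forget₂ (Rep k (G ⧸ N)) (ModuleCat k)),
      ShortComplex.moduleCat_exact_iff_ker_sub_range]
    intro f hf
    have hf1 : (shiftProj B).hom
        (f : Representation.invariants ((funRep k G B.V).ρ.comp N.subtype)).1 = 0 :=
      congrArg Subtype.val hf
    obtain ⟨a, ha⟩ := (shiftProj_eq_zero_iff B _).1 hf1
    have ha' : (shiftIncl B).hom a
        = (f : Representation.invariants ((funRep k G B.V).ρ.comp N.subtype)).1 := ha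
    have haN : a ∈ Representation.invariants (B.ρ.comp N.subtype) := by
      intro n
      apply shiftIncl_injective B
      change (shiftIncl B).hom (B.ρ n a) = _
      rw [shiftIncl_comm, ha']
      exact (f : Representation.invariants ((funRep k G B.V).ρ.comp N.subtype)).2 n
    exact ⟨⟨a, haN⟩, Subtype.ext ha'⟩
  mono_f := by
    rw [Rep.mono_iff_injective]
    intro x y h
    exact Subtype.ext (shiftIncl_injective B (congrArg Subtype.val h))
  epi_g := by
    rw [Rep.epi_iff_surjective]
    intro b'
    obtain ⟨f, hf⟩ := shiftProj_surjective B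
      (b' : Representation.invariants ((shiftRep B).ρ.comp N.subtype)).1
    have hmem : ∀ n : N, (funRep k G B.V).ρ n f - f ∈ shiftRange B := by
      intro n
      rw [← shiftProj_eq_zero_iff, map_sub, shiftProj_comm, hf, sub_eq_zero]
      exact (b' : Representation.invariants ((shiftRep B).ρ.comp N.subtype)).2 n
    choose c hc using hmem
    have hc' : ∀ n : N, (shiftIncl B).hom (c n) = (funRep k G B.V).ρ n f - f := hc
    have hcoc : c ∈ cocycles₁ (Rep.res N.subtype B) := by
      rw [mem_cocycles₁_iff]
      intro n m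
      apply shiftIncl_injective B
      change (shiftIncl B).hom (c (n * m)) = (shiftIncl B).hom (B.ρ n (c m) + c n)
      rw [map_add, shiftIncl_comm, hc', hc', hc']
      simp only [Subgroup.coe_mul, map_mul, Module.End.mul_apply, map_sub]
      abel
    have hcob : c ∈ coboundaries₁ (Rep.res N.subtype B) := by
      have h2 : H1π (Rep.res N.subtype B) ⟨c, hcoc⟩ = 0 :=
        (ModuleCat.subsingleton_of_isZero h1).elim _ _
      exact (H1π_eq_zero_iff _).1 h2
    obtain ⟨a, ha⟩ := hcob
    have ha' : ∀ n : N, B.ρ n a - a = c n := fun n => congrFun ha n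
    have hinv : f - (shiftIncl B).hom a ∈
        Representation.invariants ((funRep k G B.V).ρ.comp N.subtype) := by
      intro n
      change (funRep k G B.V).ρ n (f - (shiftIncl B).hom a) = _
      rw [map_sub, ← shiftIncl_comm]
      have h3 := hc' n
      rw [← ha' n, map_sub] at h3
      rw [sub_eq_sub_iff_sub_eq_sub, ← h3]
    refine ⟨⟨f - (shiftIncl B).hom a, hinv⟩, Subtype.ext ?_⟩
    have h4 : (shiftProj B).hom ((shiftIncl B).hom a) = 0 :=
      (shiftProj_eq_zero_iff B _).2 ⟨a, rfl⟩
    change (shiftProj B).hom (f - (shiftIncl B).hom a) = _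
    rw [map_sub, hf, h4, sub_zero]

/-- The inclusion of invariants, as a morphism of short complexes. -/
noncomputable def invSCHom :
    (invSC B N).map (Rep.resFunctor (QuotientGroup.mk' N)) ⟶ shiftSC B where
  τ₁ := Rep.ofHom (B.ρ.quotientToInvariants_lift N)
  τ₂ := Rep.ofHom ((funRep k G B.V).ρ.quotientToInvariants_lift N)
  τ₃ := Rep.ofHom ((shiftRep B).ρ.quotientToInvariants_lift N)
  comm₁₂ := by
    ext x
    rfl
  comm₂₃ := by
    ext x
    rfl

/-- Dimension shifting commutes with inflation. -/
lemma invδ_comp_infMap (h1 : IsZero (H1 (Rep.res N.subtype B))) (n : ℕ) :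
    δ (invSC_shortExact B N h1) n (n + 1) rfl ≫ infMap N B (n + 1) =
      infMap N (shiftRep B) n ≫ shiftδ B n :=
  δ_naturality_map (QuotientGroup.mk' N) (invSC_shortExact B N h1) (shiftSC_shortExact B)
    (invSCHom B N) n (n + 1) rfl

/-- **Inflation–restriction in degree 2** (exactness in the middle): if `H¹(N, B) = 0` and
`x ∈ H²(G, B)` restricts to zero on `N`, then `x` is inflated from `G ⧸ N`. -/
theorem exists_infMap_eq_of_resMap_eq_zero (h1 : IsZero (H1 (Rep.res N.subtype B)))
    (x : groupCohomology B 2) (hx : resMap B N 2 x = 0) :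
    ∃ z : groupCohomology (B.quotientToInvariants N) 2, infMap N B 2 z = x := by
  obtain ⟨y, rfl⟩ := shiftδ_surjective B 1 x
  rw [shiftδ_resMap_apply] at hx
  have hy : resMap (shiftRep B) N 1 y = 0 :=
    shiftδRes_injective B N 0 (by rw [hx, map_zero])
  obtain ⟨z, hz⟩ : ∃ z : groupCohomology ((shiftRep B).quotientToInvariants N) 1,
      infMap N (shiftRep B) 1 z = y :=
    (ShortComplex.moduleCat_exact_iff _).1 (H1InfRes_exact (shiftRep B) N) y hy
  have h3 : infMap N B 2 (δ (invSC_shortExact B N h1) 1 2 rfl z) =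
      shiftδ B 1 (infMap N (shiftRep B) 1 z) :=
    congrArg (fun f => f.hom z) (invδ_comp_infMap B N h1 1)
  exact ⟨δ (invSC_shortExact B N h1) 1 2 rfl z, by rw [h3, hz]⟩

/-- If `H¹(N, B) = 0`, `H²(N, B) = 0` and `H²(G ⧸ N, B^N) = 0` then `H²(G, B) = 0`. -/
theorem isZero_H2_of_infRes (h1 : IsZero (H1 (Rep.res N.subtype B)))
    (h2 : IsZero (groupCohomology (Rep.res N.subtype B) 2))
    (h3 : IsZero (groupCohomology (B.quotientToInvariants N) 2)) :
    IsZero (groupCohomology B 2) := by
  rw [ModuleCat.isZero_iff_subsingleton]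
  refine ⟨fun x y => ?_⟩
  have key : ∀ x : groupCohomology B 2, x = 0 := by
    intro x
    obtain ⟨z, rfl⟩ := exists_infMap_eq_of_resMap_eq_zero B N h1 x
      ((ModuleCat.subsingleton_of_isZero h2).elim _ _)
    rw [(ModuleCat.subsingleton_of_isZero h3).elim z 0, map_zero]
  rw [key x, key y]

end Inv

end Fermat.Agent.S55.H783
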